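/-
T16 / ARITH (helper6): the UPPER bound of S16 from the seven `NoConst` cases and the
Eisenstein series of weight 2 and level `p`.

`Cong p M` (shape of `S16/Pairing.lean`, ruling board 888): a cusp form `f ∈ intLattice p 2` with
`a_k(f) ≡ σ'(k) mod M` for all `k ≥ 1`.  We show `M ∣ n := eisensteinNumerator p`.

Bookkeeping: `g := gcd (p-1) 12`, `n g = p - 1`, `h := 24 / g`, so `h (p-1)/24 = n`.
If `M ∤ n` pick a prime `l` with `v_l(n) < v_l(M)`, `e' := v_l(n)`, `n = l^e' n'`.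
`G := (h / l^e') • (E - f)` has INTEGER `q`-coefficients, `a_0(G) = n'` prime to `l` and
`a_k(G) = l^r * (integer)` for `k ≥ 1`, whenever `l^(r-1) ∣ h`:
`r = 1` (`l ≥ 5`; `l = 3`, `p ≡ 1 (3)`), `r = 2` (`l = 3`, `p ≡ 2 (3)`; `l = 2`, `p ≡ 1 (4)`),
`r = 3` (`l = 2`, `p ≡ 3 (4)`).
-/
import Mathlib
import Fermat.Prelude.Def_CuspForm_IntegralStructure
import Fermat.Prelude.Def_ModularCurve_ModularUnit
import Fermat.Prelude.Thm_CongruenceSubgroup_one_mem_strictPeriods_Gamma0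

set_option autoImplicit false

namespace Fermat.Agent.S16.Arith

open ModularFormClass CongruenceSubgroup UpperHalfPlane ModularCurve

/-- `σ'(k)`: the sum of the divisors of `k` prime to `p` (identical to `S16.sigmaP`). -/
def sigP (p k : ℕ) : ℤ := ∑ d ∈ k.divisors.filter (fun d => ¬ p ∣ d), (d : ℤ)

/-- a cusp form in the integral lattice congruent to `E' = Σ σ'(k) q^k` modulo `M`
(identical to `S16.Cong`). -/
def CongA (p M : ℕ) : Prop :=
  ∃ f ∈ CuspForm.intLattice p 2, ∀ k : ℕ, 1 ≤ k →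
    ∃ c : ℤ, qCoeff (⇑f) k = (c : ℂ) ∧ c ≡ sigP p k [ZMOD M]

/-- There is no weight-2 form on `Γ₀(p)` with integer `q`-coefficients, constant term prime to
`l`, and all higher coefficients divisible by `l^r`. -/
def NoConst (p l r : ℕ) : Prop :=
  ¬ ∃ G : ModularForm (Gamma0 p) 2,
      (∃ a : ℤ, qCoeff (⇑G) 0 = (a : ℂ) ∧ ¬ (l : ℤ) ∣ a) ∧
      ∀ k : ℕ, 1 ≤ k → ∃ c : ℤ, qCoeff (⇑G) k = (((l : ℤ) ^ r * c : ℤ) : ℂ)

/-! ### arithmetic of `n`, `g`, `h` -/

theorem num_mul_gcd (p : ℕ) : eisensteinNumerator p * Nat.gcd (p - 1) 12 = p - 1 :=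
  Nat.div_mul_cancel (Nat.gcd_dvd_left _ _)

theorem h_mul_gcd (p : ℕ) : 24 / Nat.gcd (p - 1) 12 * Nat.gcd (p - 1) 12 = 24 :=
  Nat.div_mul_cancel ((Nat.gcd_dvd_right _ _).trans (by norm_num))

theorem gcd_eq_mod (p : ℕ) : Nat.gcd (p - 1) 12 = Nat.gcd ((p - 1) % 12) 12 := by
  rw [Nat.gcd_comm, Nat.gcd_rec]

theorem num_pos {p : ℕ} (hp : 2 ≤ p) : 0 < eisensteinNumerator p := by
  have h := num_mul_gcd p
  rcases Nat.eq_zero_or_pos (eisensteinNumerator p) with h0 | h0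
  · rw [h0, zero_mul] at h; omega
  · exact h0

theorem three_dvd_h {p : ℕ} (hp : p % 3 = 2) : 3 ∣ 24 / Nat.gcd (p - 1) 12 := by
  rw [gcd_eq_mod]
  have h1 : (p - 1) % 12 < 12 := Nat.mod_lt _ (by norm_num)
  have h2 : ((p - 1) % 12) % 3 = 1 := by omega
  generalize (p - 1) % 12 = m at h1 h2
  interval_cases m <;> simp_all

theorem two_dvd_h {p : ℕ} (hp : p % 4 = 1) : 2 ∣ 24 / Nat.gcd (p - 1) 12 := by
  rw [gcd_eq_mod]
  have h1 : (p - 1) % 12 < 12 := Nat.mod_lt _ (by norm_num)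
  have h2 : ((p - 1) % 12) % 4 = 0 := by omega
  generalize (p - 1) % 12 = m at h1 h2
  interval_cases m <;> simp_all

theorem four_dvd_h {p : ℕ} (hp : p % 4 = 3) : 4 ∣ 24 / Nat.gcd (p - 1) 12 := by
  rw [gcd_eq_mod]
  have h1 : (p - 1) % 12 < 12 := Nat.mod_lt _ (by norm_num)
  have h2 : ((p - 1) % 12) % 4 = 2 := by omega
  generalize (p - 1) % 12 = m at h1 h2
  interval_cases m <;> simp_all

/-! ### `q`-coefficients of `c • (E - f)` -/

theorem hΓ (N : ℕ) :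
    (1 : ℝ) ∈ (Subgroup.map (Matrix.SpecialLinearGroup.mapGL ℝ) (Gamma0 N)).strictPeriods :=
  CongruenceSubgroup.one_mem_strictPeriods_Gamma0 N

theorem qCoeff_cusp_zero {N : ℕ} (f : CuspForm (Gamma0 N) 2) : qCoeff (⇑f) 0 = 0 := by
  simp only [qCoeff]
  exact CuspFormClass.qExpansion_coeff_zero f one_pos (hΓ N)

theorem qCoeff_smul_sub {N : ℕ} (c : ℂ) (E : ModularForm (Gamma0 N) 2)
    (f : CuspForm (Gamma0 N) 2) (k : ℕ) :
    qCoeff (⇑(c • (E - CuspForm.toModularFormₗ f))) k =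
      c * (qCoeff (⇑E) k - qCoeff (⇑f) k) := by
  have h1 : (⇑(c • (E - CuspForm.toModularFormₗ f)) : ℍ → ℂ) =
      c • ⇑(E - CuspForm.toModularFormₗ f) := by
    ext z; simp
  have h2 : (⇑(E - CuspForm.toModularFormₗ f) : ℍ → ℂ) = ⇑E - ⇑f := by
    ext z; simp [CuspForm.toModularFormₗ_apply]
  simp only [qCoeff]
  rw [h1, ModularForm.qExpansion_smul one_pos (hΓ N) c (E - CuspForm.toModularFormₗ f), h2,
    ModularForm.qExpansion_sub one_pos (hΓ N) E f]
  simp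

/-- The form `G := (h / l^e') • (E - f)`. -/
theorem exists_G {p : ℕ} (hp : 2 ≤ p) (E : ModularForm (Gamma0 p) 2)
    (hE0 : qCoeff (⇑E) 0 = ((p : ℂ) - 1) / 24)
    (hEk : ∀ k : ℕ, 1 ≤ k → qCoeff (⇑E) k = (sigP p k : ℂ))
    {M : ℕ} (hM : CongA p M) {l : ℕ} (hl : l.Prime) {r : ℕ} (hr1 : 1 ≤ r)
    (hr : l ^ (r - 1) ∣ 24 / Nat.gcd (p - 1) 12)
    {e' n' : ℕ} (hn : eisensteinNumerator p = l ^ e' * n') (hln' : ¬ l ∣ n')
    (hlM : l ^ (e' + 1) ∣ M) :
    ∃ G : ModularForm (Gamma0 p) 2,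
      (∃ a : ℤ, qCoeff (⇑G) 0 = (a : ℂ) ∧ ¬ (l : ℤ) ∣ a) ∧
      ∀ k : ℕ, 1 ≤ k → ∃ c : ℤ, qCoeff (⇑G) k = (((l : ℤ) ^ r * c : ℤ) : ℂ) := by
  obtain ⟨f, -, hf⟩ := hM
  obtain ⟨h', hh'⟩ := hr
  obtain ⟨M', hM'⟩ := hlM
  have hl0 : (l : ℂ) ≠ 0 := by exact_mod_cast hl.ne_zero
  have hle0 : (l : ℂ) ^ e' ≠ 0 := pow_ne_zero _ hl0
  have hg0 : (Nat.gcd (p - 1) 12 : ℂ) ≠ 0 := by
    have : Nat.gcd (p - 1) 12 ≠ 0 := by
      intro h0
      have := Nat.gcd_eq_zero_iff.1 h0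
      omega
    exact_mod_cast this
  -- the complex identities
  have e1 : ((24 / Nat.gcd (p - 1) 12 : ℕ) : ℂ) * (Nat.gcd (p - 1) 12 : ℂ) = 24 := by
    exact_mod_cast h_mul_gcd p
  have e2 : ((l : ℂ) ^ e' * (n' : ℂ)) * (Nat.gcd (p - 1) 12 : ℂ) = (p : ℂ) - 1 := by
    have := num_mul_gcd p
    rw [hn] at this
    have h3 : ((l ^ e' * n' * Nat.gcd (p - 1) 12 : ℕ) : ℂ) = ((p - 1 : ℕ) : ℂ) := by
      exact_mod_cast congrArg (Nat.cast (R := ℂ)) this
    rw [Nat.cast_sub (by omega : 1 ≤ p)] at h3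
    push_cast at h3
    exact h3
  refine ⟨(((24 / Nat.gcd (p - 1) 12 : ℕ) : ℂ) / (l : ℂ) ^ e') • (E - CuspForm.toModularFormₗ f),
    ⟨(n' : ℤ), ?_, ?_⟩, ?_⟩
  · rw [qCoeff_smul_sub, hE0, qCoeff_cusp_zero f, sub_zero, ← e2]
    have e1' : ((24 / Nat.gcd (p - 1) 12 : ℕ) : ℂ) = 24 / (Nat.gcd (p - 1) 12 : ℂ) := by
      rw [eq_div_iff hg0]; exact e1
    rw [e1']
    push_cast
    field_simp
  · intro hdvd
    exact hln' (by exact_mod_cast hdvd)
  · intro k hk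
    obtain ⟨c, hc, hcong⟩ := hf k hk
    obtain ⟨d, hd⟩ := Int.modEq_iff_dvd.1 hcong
    refine ⟨(h' : ℤ) * (M' : ℤ) * d, ?_⟩
    rw [qCoeff_smul_sub, hEk k hk, hc]
    have e3 : ((sigP p k : ℤ) : ℂ) - (c : ℂ) = ((M : ℤ) : ℂ) * (d : ℂ) := by
      exact_mod_cast congrArg (Int.cast (R := ℂ)) hd
    rw [e3, hh', hM']
    have hr' : r = (r - 1) + 1 := by omega
    rw [hr']
    push_cast
    field_simp
    ring

/-! ### the main reduction -/

theorem congA_of_zero {p : ℕ} (h : CongA p 0) (M : ℕ) : CongA p M := by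
  obtain ⟨f, hf, hk⟩ := h
  refine ⟨f, hf, fun k hk1 => ?_⟩
  obtain ⟨c, hc, hcong⟩ := hk k hk1
  refine ⟨c, hc, ?_⟩
  have : c = sigP p k := by
    simpa [Int.modEq_zero_iff] using hcong
  rw [this]

/-- UPPER from the seven `NoConst` cases and the Eisenstein series. -/
theorem upper_of_noConst (p : ℕ) [Fact p.Prime] (hp5 : 5 ≤ p)
    (hE : ∃ E : ModularForm (Gamma0 p) 2, qCoeff (⇑E) 0 = ((p : ℂ) - 1) / 24 ∧
      ∀ k : ℕ, 1 ≤ k → qCoeff (⇑E) k = (sigP p k : ℂ))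
    (h5 : ∀ l : ℕ, l.Prime → 5 ≤ l → l ≠ p → NoConst p l 1)
    (hpp : NoConst p p 1)
    (h3a : p % 3 = 1 → NoConst p 3 1) (h3b : p % 3 = 2 → NoConst p 3 2)
    (h2a : p % 4 = 1 → NoConst p 2 2)
    (h2b3 : p % 8 = 3 → NoConst p 2 3) (h2b7 : p % 8 = 7 → NoConst p 2 3) :
    ∀ M : ℕ, CongA p M → M ∣ eisensteinNumerator p := by
  obtain ⟨E, hE0, hEk⟩ := hE
  have hpr : p.Prime := Fact.out
  have hp2 : 2 ≤ p := by omega
  have hnpos : 0 < eisensteinNumerator p := num_pos hp2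
  -- the case `1 ≤ M`
  have key : ∀ M : ℕ, 1 ≤ M → CongA p M → M ∣ eisensteinNumerator p := by
    intro M hM1 hM
    by_contra hnd
    have hM0 : M ≠ 0 := by omega
    have hn0 : eisensteinNumerator p ≠ 0 := by omega
    -- a prime `l` with `v_l(n) < v_l(M)`
    obtain ⟨l, hlt⟩ : ∃ l : ℕ, (eisensteinNumerator p).factorization l < M.factorization l := by
      by_contra hall
      simp only [not_exists, not_lt] at hall
      exact hnd ((Nat.factorization_le_iff_dvd hM0 hn0).1 (Finsupp.le_def.2 hall))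
    have hl : l.Prime := by
      by_contra hnl
      rw [Nat.factorization_eq_zero_of_not_prime M hnl] at hlt
      omega
    set e' := (eisensteinNumerator p).factorization l with he'
    have hlM : l ^ (e' + 1) ∣ M :=
      (hl.pow_dvd_iff_le_factorization hM0).2 hlt
    obtain ⟨n', hn'⟩ : l ^ e' ∣ eisensteinNumerator p := Nat.ordProj_dvd _ _
    have hln' : ¬ l ∣ n' := by
      rintro ⟨n'', rfl⟩
      have : l ^ (e' + 1) ∣ eisensteinNumerator p := ⟨n'', by rw [hn', pow_succ]; ring⟩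
      exact Nat.pow_succ_factorization_not_dvd hn0 hl this
    -- choose `r` by cases
    have main : ∀ r : ℕ, 1 ≤ r → l ^ (r - 1) ∣ 24 / Nat.gcd (p - 1) 12 → NoConst p l r → False :=
      fun r hr1 hr hNC => hNC (exists_G hp2 E hE0 hEk hM hl hr1 hr hn' hln' hlM)
    have hp3 : p % 3 = 1 ∨ p % 3 = 2 := by
      have : ¬ 3 ∣ p := fun h => by
        have := (Nat.prime_dvd_prime_iff_eq Nat.prime_three hpr).1 h
        omega
      omega
    have hp4 : p % 4 = 1 ∨ p % 4 = 3 := by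
      have : ¬ 2 ∣ p := fun h => by
        have := (Nat.prime_dvd_prime_iff_eq Nat.prime_two hpr).1 h
        omega
      omega
    by_cases hl2 : l = 2
    · subst hl2
      rcases hp4 with h4 | h4
      · exact main 2 (by norm_num) (by simpa using two_dvd_h h4) (h2a h4)
      · have h8 : p % 8 = 3 ∨ p % 8 = 7 := by omega
        rcases h8 with h8 | h8
        · exact main 3 (by norm_num) (by simpa using four_dvd_h h4) (h2b3 h8)
        · exact main 3 (by norm_num) (by simpa using four_dvd_h h4) (h2b7 h8)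
    by_cases hl3 : l = 3
    · subst hl3
      rcases hp3 with h3 | h3
      · exact main 1 le_rfl (by simp) (h3a h3)
      · exact main 2 (by norm_num) (by simpa using three_dvd_h h3) (h3b h3)
    have hl5 : 5 ≤ l := by
      have h2 := hl.two_le
      by_contra hlt5
      have : l = 4 := by omega
      subst this
      exact absurd hl (by decide)
    by_cases hlp : l = p
    · subst hlp
      exact main 1 le_rfl (by simp) hpp
    · exact main 1 le_rfl (by simp) (h5 l hl hl5 hlp)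
  intro M hM
  rcases Nat.eq_zero_or_pos M with rfl | hpos
  · have h1 := key (eisensteinNumerator p + 1) (by omega) (congA_of_zero hM _)
    have := Nat.le_of_dvd hnpos h1
    omega
  · exact key M hpos hM

end Fermat.Agent.S16.Arith
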