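/-
T16 / ARITH (helper6): the trivial levels `p = 2, 3`: `S_2(Γ₀(p)) = 0` (Sturm bound of the prelude
+ `index Γ₀(p) = ψ(p) ≤ 4`), hence `Cong p M → M ∣ 1`.
-/
import Fermat.Agent.S16.Arith.Upper
import Fermat.Prelude.Thm_ModularForm_sturm_bound_Gamma0
import Fermat.Agent.S20_helper27.Index

set_option autoImplicit false

namespace Fermat.Agent.S16.Arith

open ModularFormClass CongruenceSubgroup UpperHalfPlane ModularCurve

theorem dedekindPsi_prime {p : ℕ} (hp : p.Prime) : dedekindPsi p = p + 1 := by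
  have h1 : p ≠ 1 := hp.ne_one
  have hsq : Squarefree p := hp.prime.squarefree
  rw [dedekindPsi, hp.divisors, Finset.filter_insert, if_pos squarefree_one,
    Finset.filter_singleton, if_pos hsq, Finset.sum_insert (by simpa using h1.symm),
    Finset.sum_singleton, Nat.div_one, Nat.div_self hp.pos]

theorem cuspForm_eq_zero_of_index_le {N : ℕ} [NeZero N] (hidx : (Gamma0 N).index ≤ 5)
    (f : CuspForm (Gamma0 N) 2) : f = 0 := by
  have hF : (f : ModularForm (Gamma0 N) 2) = 0 := by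
    apply ModularForm.sturm_bound_Gamma0 N
    intro n hn
    have hn0 : n = 0 := by
      have : ((2 : ℤ) * ((Gamma0 N).index : ℤ)).toNat / 12 = 0 := by omega
      omega
    subst hn0
    exact CuspFormClass.qExpansion_coeff_zero f one_pos (hΓ N)
  ext z
  have := DFunLike.congr_fun hF z
  simpa using this

theorem sigP_one (p : ℕ) (hp : 2 ≤ p) : sigP p 1 = 1 := by
  have : ¬ p ∣ 1 := by
    intro h
    have := Nat.le_of_dvd one_pos h
    omega
  rw [sigP, Nat.divisors_one, Finset.filter_singleton, if_pos this, Finset.sum_singleton]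
  rfl

/-- the trivial levels `p = 2, 3` -/
theorem upper_small (p : ℕ) [Fact p.Prime] (hp : p ≤ 3) :
    ∀ M : ℕ, CongA p M → M ∣ eisensteinNumerator p := by
  have hpr : p.Prime := Fact.out
  have : NeZero p := ⟨hpr.ne_zero⟩
  have hidx : (Gamma0 p).index ≤ 5 := by
    rw [Fermat.Agent.S20_helper27.index_Gamma0, dedekindPsi_prime hpr]
    omega
  rintro M ⟨f, -, hf⟩
  obtain ⟨c, hc, hcong⟩ := hf 1 le_rfl
  have hf0 : f = 0 := cuspForm_eq_zero_of_index_le hidx f
  have hc0 : c = 0 := by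
    have h0 : qCoeff (⇑f) 1 = 0 := by
      rw [hf0]
      simp only [qCoeff]
      have : (⇑(0 : CuspForm (Gamma0 p) 2) : ℍ → ℂ) = 0 := rfl
      rw [this, qExpansion_zero]
      simp
    rw [h0] at hc
    exact_mod_cast hc.symm
  rw [hc0, sigP_one p hpr.two_le] at hcong
  have h1 : (M : ℤ) ∣ 1 := by
    have := Int.modEq_iff_dvd.1 hcong
    simpa using this
  have h2 : M ∣ 1 := by exact_mod_cast h1
  exact h2.trans (one_dvd _)

end Fermat.Agent.S16.Arith

namespace Fermat.Agent.S16.Arith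

open ModularFormClass CongruenceSubgroup UpperHalfPlane ModularCurve

/-- UPPER for every prime `p`, from the Eisenstein series and the seven `NoConst` cases
(all only needed for `5 ≤ p`). -/
theorem upper_all (p : ℕ) [Fact p.Prime]
    (hE : 5 ≤ p → ∃ E : ModularForm (Gamma0 p) 2, qCoeff (⇑E) 0 = ((p : ℂ) - 1) / 24 ∧
      ∀ k : ℕ, 1 ≤ k → qCoeff (⇑E) k = (sigP p k : ℂ))
    (h5 : 5 ≤ p → ∀ l : ℕ, l.Prime → 5 ≤ l → l ≠ p → NoConst p l 1)
    (hpp : 5 ≤ p → NoConst p p 1)
    (h3a : 5 ≤ p → p % 3 = 1 → NoConst p 3 1) (h3b : 5 ≤ p → p % 3 = 2 → NoConst p 3 2)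
    (h2a : 5 ≤ p → p % 4 = 1 → NoConst p 2 2)
    (h2b3 : 5 ≤ p → p % 8 = 3 → NoConst p 2 3) (h2b7 : 5 ≤ p → p % 8 = 7 → NoConst p 2 3) :
    ∀ M : ℕ, CongA p M → M ∣ eisensteinNumerator p := by
  have hpr : p.Prime := Fact.out
  by_cases hp : p ≤ 3
  · exact upper_small p hp
  · have hp5 : 5 ≤ p := by
      by_contra h
      have : p = 4 := by omega
      subst this
      exact absurd hpr (by decide)
    exact upper_of_noConst p hp5 (hE hp5) (h5 hp5) (hpp hp5) (h3a hp5) (h3b hp5) (h2a hp5)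
      (h2b3 hp5) (h2b7 hp5)

end Fermat.Agent.S16.Arith
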