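/-
T16 / ARITH (helper6): UPPER in the shared interface of `S16/NoConst.lean` (helper35):
`∀ M, CongA p M → M ∣ eisensteinNumerator p` from the Eisenstein series and the seven
`NoConstInt` cases.
-/
import Fermat.Agent.S16.Arith.Small
import Fermat.Agent.S16.NoConst

set_option autoImplicit false

namespace Fermat.Agent.S16.Arith

open ModularFormClass CongruenceSubgroup UpperHalfPlane ModularCurve

/-- the shared `NoConstInt` is (definitionally almost) `Arith.NoConst` -/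
theorem noConst_of_noConstInt {p l r : ℕ} (h : Fermat.Agent.S16.NoConstInt p l r) :
    NoConst p l r := by
  rintro ⟨G, ⟨a, ha, hla⟩, hk⟩
  apply h
  refine ⟨G, ⟨a, hla, ha⟩, fun k hk1 => ?_⟩
  obtain ⟨c, hc⟩ := hk k hk1
  refine ⟨c, ?_⟩
  have : (qExpansion 1 G).coeff k = qCoeff (⇑G) k := rfl
  rw [this, hc]
  push_cast
  ring

/-- **UPPER** (shared interface): for every prime `p`. -/
theorem upper (p : ℕ) [Fact p.Prime]
    (hE : 5 ≤ p → ∃ E : ModularForm (Gamma0 p) 2, qCoeff (⇑E) 0 = ((p : ℂ) - 1) / 24 ∧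
      ∀ k : ℕ, 1 ≤ k → qCoeff (⇑E) k = (sigP p k : ℂ))
    (h5 : 5 ≤ p → ∀ l : ℕ, l.Prime → 5 ≤ l → l ≠ p → Fermat.Agent.S16.NoConstInt p l 1)
    (hpp : 5 ≤ p → Fermat.Agent.S16.NoConstInt p p 1)
    (h3a : 5 ≤ p → p % 3 = 1 → Fermat.Agent.S16.NoConstInt p 3 1)
    (h3b : 5 ≤ p → p % 3 = 2 → Fermat.Agent.S16.NoConstInt p 3 2)
    (h2a : 5 ≤ p → p % 4 = 1 → Fermat.Agent.S16.NoConstInt p 2 2)
    (h2b3 : 5 ≤ p → p % 8 = 3 → Fermat.Agent.S16.NoConstInt p 2 3)
    (h2b7 : 5 ≤ p → p % 8 = 7 → Fermat.Agent.S16.NoConstInt p 2 3) :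
    ∀ M : ℕ, CongA p M → M ∣ eisensteinNumerator p :=
  upper_all p hE (fun h l hl hl5 hlp => noConst_of_noConstInt (h5 h l hl hl5 hlp))
    (fun h => noConst_of_noConstInt (hpp h))
    (fun h h' => noConst_of_noConstInt (h3a h h')) (fun h h' => noConst_of_noConstInt (h3b h h'))
    (fun h h' => noConst_of_noConstInt (h2a h h'))
    (fun h h' => noConst_of_noConstInt (h2b3 h h')) (fun h h' => noConst_of_noConstInt (h2b7 h h'))

end Fermat.Agent.S16.Arith
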