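/-
T16 / ARITH (helper6): UPPER with the Eisenstein series plugged in (`S16/Eis/QExp.lean`, helper57):
`∀ M, CongA p M → M ∣ eisensteinNumerator p` from the seven `NoConstInt` cases alone.
-/
import Fermat.Agent.S16.Arith.Main
import Fermat.Agent.S16.Eis.QExp

set_option autoImplicit false

namespace Fermat.Agent.S16.Arith

open ModularFormClass CongruenceSubgroup UpperHalfPlane ModularCurve

theorem sigP_eq_sigmaP (p k : ℕ) : sigP p k = (Fermat.Agent.S16.Eis.sigmaP p k : ℤ) := by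
  simp [sigP, Fermat.Agent.S16.Eis.sigmaP]

/-- the Eisenstein input of `upper` -/
theorem exists_eis (p : ℕ) [Fact p.Prime] :
    ∃ E : ModularForm (Gamma0 p) 2, qCoeff (⇑E) 0 = ((p : ℂ) - 1) / 24 ∧
      ∀ k : ℕ, 1 ≤ k → qCoeff (⇑E) k = (sigP p k : ℂ) :=
  ⟨Fermat.Agent.S16.Eis.eis p, Fermat.Agent.S16.Eis.qExpansion_eis_coeff_zero p, fun k hk => by
    have h := Fermat.Agent.S16.Eis.qExpansion_eis_coeff_pos p (n := k) (by omega)
    rw [sigP_eq_sigmaP]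
    simpa [qCoeff] using h⟩

/-- **UPPER** from the seven `NoConstInt` cases. -/
theorem upper_of_cases (p : ℕ) [Fact p.Prime]
    (h5 : 5 ≤ p → ∀ l : ℕ, l.Prime → 5 ≤ l → l ≠ p → Fermat.Agent.S16.NoConstInt p l 1)
    (hpp : 5 ≤ p → Fermat.Agent.S16.NoConstInt p p 1)
    (h3a : 5 ≤ p → p % 3 = 1 → Fermat.Agent.S16.NoConstInt p 3 1)
    (h3b : 5 ≤ p → p % 3 = 2 → Fermat.Agent.S16.NoConstInt p 3 2)
    (h2a : 5 ≤ p → p % 4 = 1 → Fermat.Agent.S16.NoConstInt p 2 2)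
    (h2b3 : 5 ≤ p → p % 8 = 3 → Fermat.Agent.S16.NoConstInt p 2 3)
    (h2b7 : 5 ≤ p → p % 8 = 7 → Fermat.Agent.S16.NoConstInt p 2 3) :
    ∀ M : ℕ, CongA p M → M ∣ eisensteinNumerator p :=
  upper p (fun _ => exists_eis p) h5 hpp h3a h3b h2a h2b3 h2b7

end Fermat.Agent.S16.Arith
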