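/-
T16 / ARITH, the level `p = 5` (helper60).

The case `l = p = 5` is not covered by the `UP` package (its trace argument needs `¬ p ∣ 240`,
weight `4 = p - 1` is the Hasse-invariant weight) and `Arith/Small.lean` only treats `p ≤ 3`
(Sturm bound alone).  Here: `S_2(Γ₀(5)) = 0` from the genus bound (S21 squeeze, upper half of S20),
hence `CongA 5 M → M ∣ 1`, and a variant `upper_of_cases'` of `upper_of_cases` that needs the case
`l = p` only for `7 ≤ p`.
-/
import Fermat.Agent.S16.Arith.Final
import Fermat.Agent.S21_helper86.Final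

set_option autoImplicit false

namespace Fermat.Agent.S16.Arith

open ModularFormClass CongruenceSubgroup UpperHalfPlane ModularCurve

theorem nuTwo_five : nuTwo 5 = 2 := by
  rw [nuTwo, Nat.card_eq_fintype_card]
  decide

theorem nuThree_five : nuThree 5 = 0 := by
  rw [nuThree, Nat.card_eq_fintype_card]
  decide

theorem cuspCount_five : cuspCount 5 = 2 := by
  decide

theorem genusFormula_five : genusFormula 5 = 0 := by
  rw [genusFormula, dedekindPsi_prime (by norm_num : Nat.Prime 5), nuTwo_five, nuThree_five,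
    cuspCount_five]
  norm_num

/-- `S_2(Γ₀(5)) = 0`. -/
theorem cuspForm_five_eq_zero (f : CuspForm (Gamma0 5) 2) : f = 0 := by
  obtain ⟨hfin, hle⟩ := Fermat.Agent.S21_helper86.finrank_cuspForm_two_le 5
  rw [genusFormula_five] at hle
  have h0 : Module.finrank ℂ (CuspForm (Gamma0 5) 2) = 0 := by
    have : (Module.finrank ℂ (CuspForm (Gamma0 5) 2) : ℚ) = 0 :=
      le_antisymm hle (by positivity)
    exact_mod_cast this
  have hsub : Subsingleton (CuspForm (Gamma0 5) 2) := Module.finrank_zero_iff.1 h0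
  exact Subsingleton.elim _ _

/-- the level `p = 5`: every congruence modulus divides `1`. -/
theorem upper_five : ∀ M : ℕ, CongA 5 M → M ∣ eisensteinNumerator 5 := by
  rintro M ⟨f, -, hf⟩
  obtain ⟨c, hc, hcong⟩ := hf 1 le_rfl
  have hf0 : f = 0 := cuspForm_five_eq_zero f
  have hc0 : c = 0 := by
    have h0 : qCoeff (⇑f) 1 = 0 := by
      rw [hf0]
      simp only [qCoeff]
      have : (⇑(0 : CuspForm (Gamma0 5) 2) : ℍ → ℂ) = 0 := rfl
      rw [this, qExpansion_zero]
      simp
    rw [h0] at hc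
    exact_mod_cast hc.symm
  rw [hc0, sigP_one 5 (by norm_num)] at hcong
  have h1 : (M : ℤ) ∣ 1 := by
    have := Int.modEq_iff_dvd.1 hcong
    simpa using this
  have h2 : M ∣ 1 := by exact_mod_cast h1
  exact h2.trans (one_dvd _)

/-- **UPPER** from the seven `NoConstInt` cases, the case `l = p` being needed for `7 ≤ p` only
(the level `p = 5` is treated by `upper_five`). -/
theorem upper_of_cases' (p : ℕ) [Fact p.Prime]
    (h5 : 5 ≤ p → ∀ l : ℕ, l.Prime → 5 ≤ l → l ≠ p → Fermat.Agent.S16.NoConstInt p l 1)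
    (hpp : 7 ≤ p → Fermat.Agent.S16.NoConstInt p p 1)
    (h3a : 5 ≤ p → p % 3 = 1 → Fermat.Agent.S16.NoConstInt p 3 1)
    (h3b : 5 ≤ p → p % 3 = 2 → Fermat.Agent.S16.NoConstInt p 3 2)
    (h2a : 5 ≤ p → p % 4 = 1 → Fermat.Agent.S16.NoConstInt p 2 2)
    (h2b3 : 5 ≤ p → p % 8 = 3 → Fermat.Agent.S16.NoConstInt p 2 3)
    (h2b7 : 5 ≤ p → p % 8 = 7 → Fermat.Agent.S16.NoConstInt p 2 3) :
    ∀ M : ℕ, CongA p M → M ∣ eisensteinNumerator p := by
  have hpr : p.Prime := Fact.out
  by_cases hp5 : p = 5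
  · subst hp5
    exact upper_five
  · refine upper_of_cases p h5 (fun h => hpp ?_) h3a h3b h2a h2b3 h2b7
    by_contra h7
    have h6 : p = 6 := by omega
    subst h6
    exact absurd hpr (by decide)

end Fermat.Agent.S16.Arith
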