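/-
T16 (S16) — ARITH-VAL (helper31, ruling board 951): the adapter between helper92's sequence-level
arithmetic core (`UpperAsm.LDvd`) and the shared U-case interface `NoConst` (S16/NoConst.lean).

  not_noConst_of_lDvd : a form `G0 ∈ M₂(Γ₀(p))` with q-expansion `(p-1)/24 + ∑ D k q^k`, `D k ∈ ℤ`,
    such that the normalised sequence `24/(p-1) · D k` is divisible by `l^r` in `ℤ_(l)`,
    contradicts `NoConst p l r`.

Proof: write `p - 1 = l^s P'`, `24 = l^w W` with `l ∤ P'`, `l ∤ W`; then `G := (l^w / l^s) • G0` has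
constant term `P'/W` (a rational `l`-unit) and higher coefficients `l^w D k / l^s ∈ l^r ℤ`.
-/
import Mathlib
import Fermat.Agent.S16.NoConst
import Fermat.Agent.S16.UpperAsm

set_option autoImplicit false

open scoped MatrixGroups ModularForm
open ModularFormClass UpperHalfPlane

namespace Fermat.Agent.S16.ArithVal

/-- integer core: from `24 · D · b = l^r · a · (p-1)` with `l ∤ b`, `p - 1 = l^s P'`, `24 = l^w W`,
`l ∤ W`, get `l^w · D = l^s · (l^r · c)` for an integer `c`. -/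
theorem val_core {l r s w : ℕ} (hl : l.Prime) {P' W : ℕ} (hW : ¬ l ∣ W) {D a b : ℤ}
    (hb : ¬ (l : ℤ) ∣ b)
    (heq : ((l : ℤ) ^ w * (W : ℤ)) * D * b = (l : ℤ) ^ r * a * ((l : ℤ) ^ s * (P' : ℤ))) :
    ∃ c : ℤ, (l : ℤ) ^ w * D = (l : ℤ) ^ s * ((l : ℤ) ^ r * c) := by
  have hlp : Prime (l : ℤ) := Nat.prime_iff_prime_int.mp hl
  have hWb : ¬ (l : ℤ) ∣ (W : ℤ) * b := by
    intro hd
    rcases hlp.dvd_or_dvd hd with h | h
    · exact hW (by exact_mod_cast h)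
    · exact hb h
  have hdvd : (l : ℤ) ^ (s + r) ∣ ((l : ℤ) ^ w * D) * ((W : ℤ) * b) := by
    refine ⟨a * (P' : ℤ), ?_⟩
    have : ((l : ℤ) ^ w * D) * ((W : ℤ) * b) = ((l : ℤ) ^ w * (W : ℤ)) * D * b := by ring
    rw [this, heq, pow_add]
    ring
  obtain ⟨c, hc⟩ := hlp.pow_dvd_of_dvd_mul_right (s + r) hWb hdvd
  exact ⟨c, by rw [hc, pow_add]; ring⟩

/-- **ARITH-VAL adapter** (ruling 951). -/
theorem not_noConst_of_lDvd {p l r : ℕ} [Fact l.Prime] (hp : 2 ≤ p)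
    (G0 : ModularForm (CongruenceSubgroup.Gamma0 p) 2) (D : ℕ → ℤ)
    (h0 : (qExpansion 1 G0).coeff 0 = ((p : ℂ) - 1) / 24)
    (hk : ∀ k : ℕ, 1 ≤ k → (qExpansion 1 G0).coeff k = (D k : ℂ))
    (h : UpperAsm.LDvd l r (fun k => (24 : ℚ) / ((p : ℚ) - 1) * (D k : ℚ))) :
    ¬ NoConst p l r := by
  have hl : l.Prime := Fact.out
  obtain ⟨s, P', hP', hPs⟩ :=
    Nat.exists_eq_pow_mul_and_not_dvd (n := p - 1) (by omega) l hl.ne_one
  obtain ⟨w, W, hW', hWs⟩ :=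
    Nat.exists_eq_pow_mul_and_not_dvd (n := 24) (by norm_num) l hl.ne_one
  have hlC : (l : ℂ) ≠ 0 := by exact_mod_cast hl.ne_zero
  have hlQ : (l : ℚ) ≠ 0 := by exact_mod_cast hl.ne_zero
  have hP'0 : P' ≠ 0 := by
    rintro rfl
    rw [mul_zero] at hPs
    omega
  have hW0 : W ≠ 0 := by
    rintro rfl
    rw [mul_zero] at hWs
    omega
  have hpC : ((p : ℂ) - 1) = (l : ℂ) ^ s * (P' : ℂ) := by
    have : ((p : ℂ) - 1) = ((p - 1 : ℕ) : ℂ) := by
      rw [Nat.cast_sub (by omega)]; simp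
    rw [this, hPs]; push_cast; ring
  have hpQ : ((p : ℚ) - 1) = (l : ℚ) ^ s * (P' : ℚ) := by
    have : ((p : ℚ) - 1) = ((p - 1 : ℕ) : ℚ) := by
      rw [Nat.cast_sub (by omega)]; simp
    rw [this, hPs]; push_cast; ring
  have h24C : (24 : ℂ) = (l : ℂ) ^ w * (W : ℂ) := by
    have : (24 : ℂ) = ((24 : ℕ) : ℂ) := by norm_num
    rw [this, hWs]; push_cast; ring
  have h24Q : (24 : ℚ) = (l : ℚ) ^ w * (W : ℚ) := by
    have : (24 : ℚ) = ((24 : ℕ) : ℚ) := by norm_num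
    rw [this, hWs]; push_cast; ring
  have hP'C : (P' : ℂ) ≠ 0 := by exact_mod_cast hP'0
  have hWC : (W : ℂ) ≠ 0 := by exact_mod_cast hW0
  have hP'Q : (P' : ℚ) ≠ 0 := by exact_mod_cast hP'0
  have hWQ : (W : ℚ) ≠ 0 := by exact_mod_cast hW0
  intro hNC
  apply hNC
  refine ⟨((l : ℂ) ^ w / (l : ℂ) ^ s) • G0, ⟨(P' : ℚ) / (W : ℚ), ?_, ?_, ?_⟩, ?_⟩
  · exact div_ne_zero hP'Q hWQ
  · rw [padicValRat.div hP'Q hWQ, padicValRat.of_nat, padicValRat.of_nat,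
      padicValNat.eq_zero_of_not_dvd hP', padicValNat.eq_zero_of_not_dvd hW']
    simp
  · rw [UpperAsm.coeff_qExpansion_smul, h0, hpC, h24C]
    push_cast
    field_simp
  · intro k hk1
    obtain ⟨a, b, hb, hx⟩ := h k hk1
    have hb0 : (b : ℚ) ≠ 0 := by
      intro hb0
      have : b = 0 := by exact_mod_cast hb0
      exact hb (this ▸ dvd_zero _)
    -- the integer equation
    have heq : ((l : ℤ) ^ w * (W : ℤ)) * D k * b = (l : ℤ) ^ r * a * ((l : ℤ) ^ s * (P' : ℤ)) := by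
      have hx' : (24 : ℚ) / ((p : ℚ) - 1) * (D k : ℚ) = (l : ℚ) ^ r * a / b := hx
      rw [hpQ, h24Q] at hx'
      have hne : (l : ℚ) ^ s * (P' : ℚ) ≠ 0 := mul_ne_zero (pow_ne_zero _ hlQ) hP'Q
      have : ((l : ℚ) ^ w * (W : ℚ)) * (D k : ℚ) * (b : ℚ) =
          (l : ℚ) ^ r * (a : ℚ) * ((l : ℚ) ^ s * (P' : ℚ)) := by
        field_simp at hx'
        linarith [hx']
      exact_mod_cast this
    obtain ⟨c, hc⟩ := val_core hl hW' hb heq
    refine ⟨c, ?_⟩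
    rw [UpperAsm.coeff_qExpansion_smul, hk k hk1]
    have hcC : (l : ℂ) ^ w * (D k : ℂ) = (l : ℂ) ^ s * ((l : ℂ) ^ r * (c : ℂ)) := by
      exact_mod_cast hc
    have hs : (l : ℂ) ^ s ≠ 0 := pow_ne_zero _ hlC
    rw [div_mul_eq_mul_div, hcC]
    field_simp

end Fermat.Agent.S16.ArithVal
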